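import Mathlib

/-!
# Weak Chebotarev (Frobenius density theorem): basic definitions

`HasDens a δ` : the Dirichlet series `∑ a n n^{-s}` converges for `s > 1` and equals
`δ log (1/(s-1)) + O(1)` as `s → 1+`.
-/

set_option autoImplicit false

namespace Fermat.Agent.ChebLib

open Filter Topology Asymptotics

/-- the Dirichlet series with coefficients `a` is `δ log (1/(s-1)) + O(1)` as `s → 1+`. -/
def HasDens (a : ℕ → ℝ) (δ : ℝ) : Prop :=
  (∀ s : ℝ, 1 < s → Summable fun n : ℕ => a n * (n : ℝ) ^ (-s)) ∧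
  (fun s : ℝ => (∑' n : ℕ, a n * (n : ℝ) ^ (-s)) - δ * Real.log (1 / (s - 1)))
    =O[𝓝[>] 1] (fun _ => (1 : ℝ))

end Fermat.Agent.ChebLib
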