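import Mathlib
import Fermat.Agent.Lib.Chebotarev.Defs
import Fermat.Agent.S14.NonSplitCore

/-!
# Weak Chebotarev, leaf (AN): degree one primes have Dirichlet density one
-/

set_option autoImplicit false

namespace Fermat.Agent.ChebLib

open NumberField Filter Topology Asymptotics IsDedekindDomain
open Fermat.Agent.S14Lib Fermat.Agent.S14Lib.NonSplit

theorem an_exp_le_inv {x : ℝ} (h1 : x < 1) : Real.exp x ≤ (1 - x)⁻¹ := by
  have hpos : 0 < 1 - x := by linarith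
  have h2 : 1 - x ≤ Real.exp (-x) := by linarith [Real.add_one_le_exp (-x)]
  rw [Real.exp_neg] at h2
  have h3 := inv_anti₀ hpos h2
  rwa [inv_inv] at h3

theorem an_inv_le_exp {x : ℝ} (h0 : 0 ≤ x) (h1 : x ≤ 1 / 2) :
    (1 - x)⁻¹ ≤ Real.exp (x + 2 * x ^ 2) := by
  have hpos : 0 < 1 - x := by linarith
  have h2 : (1 - x)⁻¹ = x / (1 - x) + 1 := by field_simp; ring
  have h3 : x / (1 - x) ≤ x + 2 * x ^ 2 := by
    rw [div_le_iff₀ hpos]
    nlinarith [mul_nonneg h0 h0, mul_nonneg (mul_nonneg h0 h0) (by linarith : 0 ≤ 1 / 2 - x)]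
  calc (1 - x)⁻¹ = x / (1 - x) + 1 := h2
    _ ≤ Real.exp (x / (1 - x)) := Real.add_one_le_exp _
    _ ≤ Real.exp (x + 2 * x ^ 2) := Real.exp_le_exp.2 h3

section field

variable (K : Type) [Field K] [NumberField K]

omit [NumberField K] in
theorem an_asIdeal_injective :
    Function.Injective (fun v : HeightOneSpectrum (𝓞 K) => v.asIdeal) :=
  fun _ _ h => HeightOneSpectrum.ext h

theorem an_summable_xx {s : ℝ} (hs : 1 < s) :
    Summable (fun v : HeightOneSpectrum (𝓞 K) => xx s v) :=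
  (zeta_eq_tsum K s hs).1.comp_injective (an_asIdeal_injective K)

theorem an_ZR_pos {s : ℝ} (hs : 1 < s) : 0 < ZR K s := by
  have h := prod_le_ZR (K := K) hs ∅
  simp only [Finset.prod_empty] at h
  linarith

theorem an_tsum_xx_le {s : ℝ} (hs : 1 < s) :
    ∑' v : HeightOneSpectrum (𝓞 K), xx s v ≤ Real.log (ZR K s) := by
  refine (an_summable_xx K hs).tsum_le_of_sum_le fun T => ?_
  rw [Real.le_log_iff_exp_le (an_ZR_pos K hs), Real.exp_sum]
  refine le_trans ?_ (prod_le_ZR hs T)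
  refine Finset.prod_le_prod (fun _ _ => (Real.exp_pos _).le) fun v _ => ?_
  exact an_exp_le_inv (by linarith [xx_le_half hs.le v])

theorem an_sq_le {s : ℝ} (hs : 1 < s) (v : HeightOneSpectrum (𝓞 K)) :
    xx s v ^ 2 ≤ xx 2 v := by
  have h1 := xx_le_inv hs.le v
  have h0 := xx_nonneg s v
  have h2 : xx 2 v = (((Ideal.absNorm v.asIdeal : ℝ))⁻¹) ^ 2 := by
    rw [xx, Real.rpow_neg (Nat.cast_nonneg _), inv_pow]
    norm_cast
  rw [h2]
  exact pow_le_pow_left₀ h0 h1 2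

theorem an_log_ZR_le {s : ℝ} (hs : 1 < s) :
    Real.log (ZR K s) ≤ ∑' v : HeightOneSpectrum (𝓞 K), xx s v +
      2 * ∑' v : HeightOneSpectrum (𝓞 K), xx 2 v := by
  rw [Real.log_le_iff_le_exp (an_ZR_pos K hs)]
  refine ZR_le_of_prod_le hs fun T => ?_
  have h2 : Summable (fun v : HeightOneSpectrum (𝓞 K) => xx 2 v) :=
    an_summable_xx K (by norm_num)
  calc ∏ v ∈ T, (1 - xx s v)⁻¹ ≤ ∏ v ∈ T, Real.exp (xx s v + 2 * xx s v ^ 2) :=
        Finset.prod_le_prod
          (fun v _ => (zero_le_one.trans (one_le_inv_one_sub hs.le v)))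
          fun v _ => an_inv_le_exp (xx_nonneg s v) (xx_le_half hs.le v)
    _ = Real.exp (∑ v ∈ T, (xx s v + 2 * xx s v ^ 2)) := (Real.exp_sum _ _).symm
    _ ≤ _ := by
      refine Real.exp_le_exp.2 ?_
      rw [Finset.sum_add_distrib, ← Finset.mul_sum]
      have ha : ∑ v ∈ T, xx s v ≤ ∑' v : HeightOneSpectrum (𝓞 K), xx s v :=
        (an_summable_xx K hs).sum_le_tsum T fun v _ => xx_nonneg s v
      have hb : ∑ v ∈ T, xx s v ^ 2 ≤ ∑' v : HeightOneSpectrum (𝓞 K), xx 2 v :=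
        (Finset.sum_le_sum fun v _ => an_sq_le K hs v).trans
          (h2.sum_le_tsum T fun v _ => xx_nonneg 2 v)
      linarith

open Classical in
/-- the summand on ideals. -/
noncomputable def anG (B : ℕ) (s : ℝ) (I : Ideal (𝓞 K)) : ℝ :=
  if (Ideal.absNorm I).Prime ∧ ¬ Ideal.absNorm I ∣ B then (Ideal.absNorm I : ℝ) ^ (-s) else 0

theorem anG_nonneg (B : ℕ) (s : ℝ) (I : Ideal (𝓞 K)) : 0 ≤ anG K B s I := by
  rw [anG]; split_ifs
  · exact Real.rpow_nonneg (Nat.cast_nonneg _) _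
  · exact le_rfl

theorem anG_le (B : ℕ) (s : ℝ) (I : Ideal (𝓞 K)) :
    anG K B s I ≤ (Ideal.absNorm I : ℝ) ^ (-s) := by
  rw [anG]; split_ifs
  · exact le_rfl
  · exact Real.rpow_nonneg (Nat.cast_nonneg _) _

theorem an_summable_G (B : ℕ) {s : ℝ} (hs : 1 < s) : Summable (anG K B s) :=
  Summable.of_nonneg_of_le (anG_nonneg K B s) (anG_le K B s) (zeta_eq_tsum K s hs).1

open Classical in
/-- the coefficients. -/
noncomputable def anA (B : ℕ) (ℓ : ℕ) : ℝ :=
  if ℓ.Prime ∧ ¬ ℓ ∣ B then (Nat.card {I : Ideal (𝓞 K) // Ideal.absNorm I = ℓ} : ℝ) else 0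

theorem an_tsum_fiber (B : ℕ) (s : ℝ) (n : ℕ) :
    ∑' I : {I : Ideal (𝓞 K) // Ideal.absNorm I = n}, anG K B s (I : Ideal (𝓞 K)) =
      anA K B n * (n : ℝ) ^ (-s) := by
  have : ∀ I : {I : Ideal (𝓞 K) // Ideal.absNorm I = n},
      anG K B s (I : Ideal (𝓞 K)) = if n.Prime ∧ ¬ n ∣ B then (n : ℝ) ^ (-s) else 0 :=
    fun I => by rw [anG, I.2]
  rw [tsum_congr this, tsum_const, anA, nsmul_eq_mul]
  split_ifs <;> simp

theorem an_summable_sigma (B : ℕ) {s : ℝ} (hs : 1 < s) :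
    Summable (fun x : (Σ n : ℕ, {I : Ideal (𝓞 K) // Ideal.absNorm I = n}) =>
      anG K B s (x.2 : Ideal (𝓞 K))) := by
  have h := an_summable_G K B hs
  rw [← (Equiv.sigmaFiberEquiv (fun I : Ideal (𝓞 K) => Ideal.absNorm I)).summable_iff] at h
  exact h

theorem an_summable_A (B : ℕ) {s : ℝ} (hs : 1 < s) :
    Summable fun n : ℕ => anA K B n * (n : ℝ) ^ (-s) := by
  have h := (an_summable_sigma K B hs).sigma
  simpa only [an_tsum_fiber] using h

theorem an_tsum_A (B : ℕ) {s : ℝ} (hs : 1 < s) :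
    ∑' n : ℕ, anA K B n * (n : ℝ) ^ (-s) = ∑' I : Ideal (𝓞 K), anG K B s I := by
  rw [← (Equiv.sigmaFiberEquiv (fun I : Ideal (𝓞 K) => Ideal.absNorm I)).tsum_eq]
  change _ = ∑' x : (Σ n : ℕ, {I : Ideal (𝓞 K) // Ideal.absNorm I = n}),
      anG K B s (x.2 : Ideal (𝓞 K))
  rw [Summable.tsum_sigma (an_summable_sigma K B hs)]
  exact (tsum_congr fun n => an_tsum_fiber K B s n).symm

theorem an_support (B : ℕ) (s : ℝ) :
    Function.support (anG K B s) ⊆
      Set.range (fun v : HeightOneSpectrum (𝓞 K) => v.asIdeal) := by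
  intro I hI
  rw [Function.mem_support, anG] at hI
  split_ifs at hI with h
  · have hp : I.IsPrime := Ideal.isPrime_of_irreducible_absNorm h.1.prime.irreducible
    have h0 : I ≠ ⊥ := by
      rintro rfl
      rw [Ideal.absNorm_bot] at h
      exact Nat.not_prime_zero h.1
    exact ⟨⟨I, hp, h0⟩, rfl⟩
  · exact absurd rfl hI

theorem an_tsum_G (B : ℕ) (s : ℝ) :
    ∑' v : HeightOneSpectrum (𝓞 K), anG K B s v.asIdeal = ∑' I : Ideal (𝓞 K), anG K B s I :=
  (an_asIdeal_injective K).tsum_eq (an_support K B s)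

theorem an_diff_le (B : ℕ) {s : ℝ} (hs : 1 < s) (v : HeightOneSpectrum (𝓞 K)) :
    xx s v ≤ anG K B s v.asIdeal + bad B v := by
  by_cases h : (Ideal.absNorm v.asIdeal).Prime ∧ ¬ Ideal.absNorm v.asIdeal ∣ B
  · rw [anG, if_pos h]
    have := bad_nonneg B v
    rw [xx]
    linarith
  · rw [anG, bad, if_neg h]
    have h2 : ¬ ((Ideal.absNorm v.asIdeal).Prime ∧ (B : 𝓞 K) ∉ v.asIdeal) := by
      rintro ⟨h3, h4⟩
      refine h ⟨h3, fun ⟨c, hc⟩ => h4 ?_⟩
      rw [hc, Nat.cast_mul]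
      exact Ideal.mul_mem_right _ _ (Ideal.absNorm_mem _)
    rw [if_neg h2, zero_add]
    exact xx_le_inv hs.le v

theorem an_main_bound (B : ℕ) (hB : B ≠ 0) {s : ℝ} (hs : 1 < s) :
    |∑' n : ℕ, anA K B n * (n : ℝ) ^ (-s) - Real.log (ZR K s)| ≤
      ∑' v : HeightOneSpectrum (𝓞 K), bad B v + 2 * ∑' v : HeightOneSpectrum (𝓞 K), xx 2 v := by
  rw [an_tsum_A K B hs, ← an_tsum_G]
  have hG : Summable (fun v : HeightOneSpectrum (𝓞 K) => anG K B s v.asIdeal) :=
    (an_summable_G K B hs).comp_injective (an_asIdeal_injective K)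
  have hbad : Summable (fun v : HeightOneSpectrum (𝓞 K) => bad B v) := summable_bad' hB
  have h1 : ∑' v : HeightOneSpectrum (𝓞 K), anG K B s v.asIdeal ≤
      ∑' v : HeightOneSpectrum (𝓞 K), xx s v :=
    hG.tsum_le_tsum (fun v => anG_le K B s v.asIdeal) (an_summable_xx K hs)
  have h2 : ∑' v : HeightOneSpectrum (𝓞 K), xx s v ≤
      ∑' v : HeightOneSpectrum (𝓞 K), anG K B s v.asIdeal +
        ∑' v : HeightOneSpectrum (𝓞 K), bad B v := by
    rw [← hG.tsum_add hbad]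
    exact (an_summable_xx K hs).tsum_le_tsum (fun v => an_diff_le K B hs v) (hG.add hbad)
  have h3 := an_tsum_xx_le K hs
  have h4 := an_log_ZR_le K hs
  have h5 : 0 ≤ ∑' v : HeightOneSpectrum (𝓞 K), bad B v := tsum_nonneg fun v => bad_nonneg B v
  have h6 : 0 ≤ ∑' v : HeightOneSpectrum (𝓞 K), xx 2 v := tsum_nonneg fun v => xx_nonneg 2 v
  rw [abs_le]
  constructor <;> linarith

theorem an_log_bounded :
    (fun s : ℝ => Real.log (ZR K s) - Real.log (1 / (s - 1))) =O[𝓝[>] 1] (fun _ => (1 : ℝ)) := by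
  have hres : 0 < dedekindZeta_residue K := dedekindZeta_residue_pos K
  have h1 : Tendsto (fun s : ℝ => Real.log ((s - 1) * ZR K s)) (𝓝[>] 1)
      (𝓝 (Real.log (dedekindZeta_residue K))) :=
    (Real.continuousAt_log hres.ne').tendsto.comp (tendsto_ZR K)
  have h2 := h1.isBigO_one ℝ
  refine h2.congr' ?_ EventuallyEq.rfl
  filter_upwards [self_mem_nhdsWithin] with s hs
  have hs' : (1 : ℝ) < s := hs
  have h3 : (0 : ℝ) < s - 1 := by linarith
  rw [Real.log_mul h3.ne' (an_ZR_pos K hs').ne', one_div, Real.log_inv]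
  ring

end field

/-- (AN) the primes of degree one have Dirichlet density one. -/
theorem hasDens_degree_one (K : Type) [Field K] [NumberField K] (B : ℕ) (hB : B ≠ 0) :
    HasDens (fun ℓ : ℕ => if ℓ.Prime ∧ ¬ ℓ ∣ B then
      (Nat.card {I : Ideal (𝓞 K) // Ideal.absNorm I = ℓ} : ℝ) else 0) 1 := by
  classical
  have hA : (fun ℓ : ℕ => if ℓ.Prime ∧ ¬ ℓ ∣ B then
      (Nat.card {I : Ideal (𝓞 K) // Ideal.absNorm I = ℓ} : ℝ) else 0) = anA K B := by
    funext ℓ
    rw [anA]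
  rw [hA]
  refine ⟨fun s hs => an_summable_A K B hs, ?_⟩
  have h1 : (fun s : ℝ => ∑' n : ℕ, anA K B n * (n : ℝ) ^ (-s) - Real.log (ZR K s))
      =O[𝓝[>] 1] (fun _ => (1 : ℝ)) := by
    refine IsBigO.of_bound (∑' v : HeightOneSpectrum (𝓞 K), bad B v +
      2 * ∑' v : HeightOneSpectrum (𝓞 K), xx 2 v) ?_
    filter_upwards [self_mem_nhdsWithin] with s hs
    rw [Real.norm_eq_abs, norm_one, mul_one]
    exact an_main_bound K B hB hs
  refine (h1.add (an_log_bounded K)).congr_left fun s => ?_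
  ring

end Fermat.Agent.ChebLib
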