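import Mathlib
import Fermat.Agent.Lib.Chebotarev.Defs

set_option autoImplicit false
set_option linter.style.haveILetI false
set_option linter.unusedSectionVars false

namespace Fermat.Agent.ChebLib

open NumberField Filter Topology Asymptotics
open scoped Pointwise

variable {L : Type} [Field L] [NumberField L] [IsGalois ℚ L]

theorem dg_coe_smul (g : L ≃ₐ[ℚ] L) (x : 𝓞 L) : ((g • x : 𝓞 L) : L) = g (x : L) := rfl

theorem dg_coe_algebraMap (H : Subgroup (L ≃ₐ[ℚ] L)) (a : 𝓞 (IntermediateField.fixedField H)) :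
    ((algebraMap (𝓞 (IntermediateField.fixedField H)) (𝓞 L) a : 𝓞 L) : L) =
      ((a : IntermediateField.fixedField H) : L) := rfl

theorem dg_smul_algebraMap (H : Subgroup (L ≃ₐ[ℚ] L)) (g : L ≃ₐ[ℚ] L) (hg : g ∈ H)
    (a : 𝓞 (IntermediateField.fixedField H)) :
    g • (algebraMap (𝓞 (IntermediateField.fixedField H)) (𝓞 L) a) =
      algebraMap (𝓞 (IntermediateField.fixedField H)) (𝓞 L) a := by
  apply RingOfIntegers.ext
  rw [dg_coe_smul, dg_coe_algebraMap]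
  exact (IntermediateField.mem_fixedField_iff H _).mp (a : IntermediateField.fixedField H).2 g hg

theorem dg_isInvariant (H : Subgroup (L ≃ₐ[ℚ] L)) :
    Algebra.IsInvariant (𝓞 (IntermediateField.fixedField H)) (𝓞 L) H := by
  refine ⟨fun b hb => ?_⟩
  have h1 : (b : L) ∈ IntermediateField.fixedField H := by
    rw [IntermediateField.mem_fixedField_iff]
    intro g hg
    exact congrArg (fun y : 𝓞 L => (y : L)) (hb ⟨g, hg⟩)
  have h2 : IsIntegral ℤ (⟨b, h1⟩ : IntermediateField.fixedField H) := by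
    have : IsIntegral ℤ (algebraMap (IntermediateField.fixedField H) L ⟨b, h1⟩) :=
      RingOfIntegers.isIntegral_coe b
    exact (isIntegral_algebraMap_iff
      (algebraMap (IntermediateField.fixedField H) L).injective).mp this
  exact ⟨⟨⟨b, h1⟩, h2⟩, RingOfIntegers.ext rfl⟩

theorem dg_smulCommClass (H : Subgroup (L ≃ₐ[ℚ] L)) :
    SMulCommClass H (𝓞 (IntermediateField.fixedField H)) (𝓞 L) :=
  ⟨fun g a b => by
    rw [Algebra.smul_def, Algebra.smul_def, smul_mul']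
    congr 1
    exact dg_smul_algebraMap H g.1 g.2 a⟩

theorem dg_ne_bot (P : Ideal (𝓞 L)) {ℓ : ℕ} (hℓ : ℓ.Prime) (hℓP : (ℓ : 𝓞 L) ∈ P) : P ≠ ⊥ := by
  rintro rfl
  rw [Ideal.mem_bot, Nat.cast_eq_zero] at hℓP
  exact hℓ.ne_zero hℓP

theorem dg_under_int (P : Ideal (𝓞 L)) (hP : P.IsPrime) {ℓ : ℕ} (hℓ : ℓ.Prime)
    (hℓP : (ℓ : 𝓞 L) ∈ P) : P.under ℤ = Ideal.span {(ℓ : ℤ)} := by
  have hmax : (Ideal.span {(ℓ : ℤ)}).IsMaximal :=
    PrincipalIdealRing.isMaximal_of_irreducible (Nat.prime_iff_prime_int.mp hℓ).irreducible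
  symm
  apply hmax.eq_of_le
  · exact (Ideal.IsPrime.under ℤ P).ne_top
  · rw [Ideal.span_singleton_le_iff_mem, Ideal.under, Ideal.mem_comap]
    simpa using hℓP

theorem dg_smul_eq_of_frob (P : Ideal (𝓞 L)) (hP : P.IsPrime) {ℓ : ℕ} (hℓ : ℓ.Prime)
    (t : L ≃ₐ[ℚ] L) (ht : ∀ x : 𝓞 L, t • x - x ^ ℓ ∈ P) : t • P = P := by
  have hiff : ∀ x : 𝓞 L, t • x ∈ P ↔ x ∈ P := by
    intro x
    constructor
    · intro h
      have h1 := P.sub_mem h (ht x)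
      rw [sub_sub_cancel] at h1
      exact hP.mem_of_pow_mem ℓ h1
    · intro h
      have h1 := P.add_mem (ht x) (P.pow_mem_of_mem h ℓ hℓ.pos)
      rwa [sub_add_cancel] at h1
  ext y
  rw [Ideal.mem_pointwise_smul_iff_inv_smul_mem, ← hiff, smul_inv_smul]

theorem exists_frob (P : Ideal (𝓞 L)) (hP : P.IsPrime) {ℓ : ℕ} (hℓ : ℓ.Prime)
    (hℓP : (ℓ : 𝓞 L) ∈ P) :
    ∃ t : L ≃ₐ[ℚ] L, t • P = P ∧ ∀ x : 𝓞 L, t • x - x ^ ℓ ∈ P := by
  haveI : Finite (𝓞 L ⧸ P) := Ideal.finiteQuotientOfFreeOfNeBot P (dg_ne_bot P hℓ hℓP)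
  obtain ⟨t, ht⟩ := IsArithFrobAt.exists_of_isInvariant ℤ (L ≃ₐ[ℚ] L) P
  have hcard : Nat.card (ℤ ⧸ P.under ℤ) = ℓ := by
    rw [dg_under_int P hP hℓ hℓP]
    simp [Int.card_ideal_quot]
  have ht' : ∀ x : 𝓞 L, t • x - x ^ ℓ ∈ P := by
    intro x
    have := ht x
    rw [hcard] at this
    exact this
  exact ⟨t, dg_smul_eq_of_frob P hP hℓ t ht', ht'⟩


theorem absNorm_under_of_frob (H : Subgroup (L ≃ₐ[ℚ] L)) (P : Ideal (𝓞 L)) (hP : P.IsPrime)
    {ℓ : ℕ} (hℓ : ℓ.Prime) (hℓP : (ℓ : 𝓞 L) ∈ P) (t : L ≃ₐ[ℚ] L) (htH : t ∈ H)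
    (ht : ∀ x : 𝓞 L, t • x - x ^ ℓ ∈ P) :
    Ideal.absNorm (P.under (𝓞 (IntermediateField.fixedField H))) = ℓ := by
  classical
  set K := IntermediateField.fixedField H with hK
  set q : Ideal (𝓞 K) := P.under (𝓞 K) with hq
  haveI : q.IsPrime := Ideal.IsPrime.under (𝓞 K) P
  have hℓq : (ℓ : 𝓞 K) ∈ q := by
    rw [hq, Ideal.under, Ideal.mem_comap, map_natCast]
    exact hℓP
  have hq0 : q ≠ ⊥ := by
    intro h
    rw [h, Ideal.mem_bot, Nat.cast_eq_zero] at hℓq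
    exact hℓ.ne_zero hℓq
  haveI : Finite (𝓞 K ⧸ q) := Ideal.finiteQuotientOfFreeOfNeBot q hq0
  haveI : Fintype (𝓞 K ⧸ q) := Fintype.ofFinite _
  haveI : q.IsMaximal := Ideal.IsPrime.isMaximal inferInstance hq0
  letI : Field (𝓞 K ⧸ q) := Ideal.Quotient.field q
  haveI : Fact ℓ.Prime := ⟨hℓ⟩
  haveI : CharP (𝓞 K ⧸ q) ℓ := by
    rw [CharP.charP_iff_prime_eq_zero hℓ]
    have : ((ℓ : 𝓞 K) : 𝓞 K ⧸ q) = 0 := Ideal.Quotient.eq_zero_iff_mem.mpr hℓq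
    simpa using this
  have hpow : ∀ y : 𝓞 K ⧸ q, y ^ ℓ = y := by
    intro y
    obtain ⟨x, rfl⟩ := Ideal.Quotient.mk_surjective y
    rw [← map_pow, eq_comm, Ideal.Quotient.eq, hq, Ideal.under, Ideal.mem_comap, map_sub, map_pow]
    have h1 := ht (algebraMap (𝓞 K) (𝓞 L) x)
    rwa [dg_smul_algebraMap H t htH x] at h1
  rw [Ideal.absNorm_apply, Submodule.cardQuot_apply, Nat.card_eq_fintype_card]
  apply le_antisymm
  · have hne : (Polynomial.X ^ ℓ - Polynomial.X : Polynomial (𝓞 K ⧸ q)) ≠ 0 :=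
      FiniteField.X_pow_card_sub_X_ne_zero _ hℓ.one_lt
    have hdeg : (Polynomial.X ^ ℓ - Polynomial.X : Polynomial (𝓞 K ⧸ q)).natDegree = ℓ :=
      FiniteField.X_pow_card_sub_X_natDegree_eq _ hℓ.one_lt
    have hsub : (Finset.univ : Finset (𝓞 K ⧸ q)) ⊆
        (Polynomial.X ^ ℓ - Polynomial.X : Polynomial (𝓞 K ⧸ q)).roots.toFinset := by
      intro y _
      rw [Multiset.mem_toFinset, Polynomial.mem_roots hne]
      simp [hpow y]
    calc Fintype.card (𝓞 K ⧸ q) = (Finset.univ : Finset (𝓞 K ⧸ q)).card := rfl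
      _ ≤ _ := Finset.card_le_card hsub
      _ ≤ _ := Multiset.toFinset_card_le _
      _ ≤ _ := Polynomial.card_roots' _
      _ = ℓ := hdeg
  · obtain ⟨n, -, hn⟩ := FiniteField.card (𝓞 K ⧸ q) ℓ
    rw [hn]
    exact Nat.le_self_pow n.pos.ne' ℓ

theorem exists_smul_eq_of_under_eq (H : Subgroup (L ≃ₐ[ℚ] L)) (P P' : Ideal (𝓞 L))
    (hP : P.IsPrime) (hP' : P'.IsPrime)
    (h : P.under (𝓞 (IntermediateField.fixedField H)) =
      P'.under (𝓞 (IntermediateField.fixedField H))) : ∃ g ∈ H, g • P = P' := by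
  haveI := dg_isInvariant H
  haveI := dg_smulCommClass H
  obtain ⟨g, hg⟩ := Algebra.IsInvariant.exists_smul_of_under_eq
    (𝓞 (IntermediateField.fixedField H)) (𝓞 L) H P P' h
  exact ⟨g.1, g.2, hg.symm⟩

theorem stabilizer_le_of_absNorm_under (H : Subgroup (L ≃ₐ[ℚ] L)) (P : Ideal (𝓞 L))
    (hP : P.IsPrime) {ℓ : ℕ} (hℓ : ℓ.Prime)
    (hI : ∀ g : L ≃ₐ[ℚ] L, (∀ x : 𝓞 L, g • x - x ∈ P) → g = 1)
    (h : Ideal.absNorm (P.under (𝓞 (IntermediateField.fixedField H))) = ℓ) :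
    MulAction.stabilizer (L ≃ₐ[ℚ] L) P ≤ H := by
  intro g hg
  haveI := dg_isInvariant H
  haveI := dg_smulCommClass H
  set K := IntermediateField.fixedField H with hK
  set q : Ideal (𝓞 K) := P.under (𝓞 K) with hq
  haveI : P.LiesOver q := ⟨rfl⟩
  haveI : Fact ℓ.Prime := ⟨hℓ⟩
  have hcard : Nat.card (𝓞 K ⧸ q) = ℓ := by
    rw [← h, Ideal.absNorm_apply, Submodule.cardQuot_apply]
  haveI : Nontrivial (𝓞 K ⧸ q) := by
    have h1 : 1 < Nat.card (𝓞 K ⧸ q) := hcard ▸ hℓ.one_lt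
    haveI : Finite (𝓞 K ⧸ q) := Nat.finite_of_card_ne_zero (by omega)
    exact (Finite.one_lt_card_iff_nontrivial.mp h1)
  let φ₀ := Ideal.Quotient.stabilizerHom P (P.under ℤ) (L ≃ₐ[ℚ] L) ⟨g, hg⟩
  have hφ₀ : ∀ b : 𝓞 L, φ₀ (Ideal.Quotient.mk P b) = Ideal.Quotient.mk P (g • b) := fun b => rfl
  let φ : (𝓞 L ⧸ P) ≃ₐ[𝓞 K ⧸ q] (𝓞 L ⧸ P) :=
    AlgEquiv.ofRingEquiv (f := φ₀.toRingEquiv) (by
      intro r
      obtain ⟨n, hn⟩ := AddSubgroup.mem_zmultiples_iff.mp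
        (mem_zmultiples_of_prime_card hcard (g := (1 : 𝓞 K ⧸ q)) (g' := r) one_ne_zero)
      rw [← hn]
      simp)
  obtain ⟨⟨k, hk⟩, hk'⟩ := Ideal.Quotient.stabilizerHom_surjective H q P φ
  have hkg : k.1⁻¹ * g = 1 := by
    apply hI
    intro x
    have h1 := DFunLike.congr_fun hk' (Ideal.Quotient.mk P x)
    rw [Ideal.Quotient.stabilizerHom_apply] at h1
    have h2 : Ideal.Quotient.mk P (k • x) = Ideal.Quotient.mk P (g • x) := h1
    rw [Ideal.Quotient.eq] at h2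
    have hkP : k.1⁻¹ • P = P := by
      have : k.1 • P = P := hk
      conv_lhs => rw [← this]
      rw [inv_smul_smul]
    rw [← hkP, Ideal.mem_pointwise_smul_iff_inv_smul_mem, inv_inv, smul_sub, mul_smul,
      smul_inv_smul]
    have := P.neg_mem h2
    rwa [neg_sub] at this
  have : g = k.1 := by
    rw [inv_mul_eq_one] at hkg
    exact hkg.symm
  rw [this]
  exact k.2

variable (L) in
theorem exists_bad : ∃ B : ℕ, B ≠ 0 ∧ ∀ ℓ : ℕ, ℓ.Prime → ¬ ℓ ∣ B → ∀ P : Ideal (𝓞 L), P.IsPrime →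
    (ℓ : 𝓞 L) ∈ P → ∀ g : L ≃ₐ[ℚ] L, (∀ x : 𝓞 L, g • x - x ∈ P) → g = 1 := by
  classical
  have hex : ∀ g : L ≃ₐ[ℚ] L, g ≠ 1 → ∃ x : 𝓞 L, g • x - x ≠ 0 := by
    intro g hg
    by_contra hcon
    push Not at hcon
    apply hg
    ext y
    obtain ⟨a, b, hb, rfl⟩ := IsFractionRing.div_surjective (A := 𝓞 L) y
    have ha := congrArg (fun z : 𝓞 L => (z : L)) (sub_eq_zero.mp (hcon a))
    have hb' := congrArg (fun z : 𝓞 L => (z : L)) (sub_eq_zero.mp (hcon b))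
    simp only [dg_coe_smul] at ha hb'
    rw [map_div₀, ha, hb']
    rfl
  choose! xx hxx using hex
  refine ⟨∏ g : L ≃ₐ[ℚ] L, if g = 1 then 1 else Ideal.absNorm (Ideal.span {g • xx g - xx g}), ?_, ?_⟩
  · rw [Finset.prod_ne_zero_iff]
    intro g _
    split_ifs with hg
    · exact one_ne_zero
    · rw [Ne, Ideal.absNorm_eq_zero_iff, Ideal.span_singleton_eq_bot]
      exact hxx g hg
  · intro ℓ hℓ hB P hP hℓP g hg
    by_contra hg1
    apply hB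
    have hdvd : Ideal.absNorm (Ideal.span {g • xx g - xx g}) ∣
        ∏ g : L ≃ₐ[ℚ] L, if g = 1 then 1 else Ideal.absNorm (Ideal.span {g • xx g - xx g}) := by
      have := Finset.dvd_prod_of_mem
        (fun g : L ≃ₐ[ℚ] L => if g = 1 then 1 else Ideal.absNorm (Ideal.span {g • xx g - xx g}))
        (Finset.mem_univ g)
      simpa [hg1] using this
    refine dvd_trans ?_ hdvd
    set n := Ideal.absNorm (Ideal.span {g • xx g - xx g}) with hn
    have hnP : (n : 𝓞 L) ∈ P := by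
      have h1 : (n : 𝓞 L) ∈ Ideal.span {g • xx g - xx g} := Ideal.absNorm_mem _
      exact (Ideal.span_singleton_le_iff_mem P).mpr (hg (xx g)) h1
    by_contra hnd
    have hcop : Nat.Coprime ℓ n := (Nat.Prime.coprime_iff_not_dvd hℓ).mpr hnd
    obtain ⟨u, v, huv⟩ := (Nat.isCoprime_iff_coprime.mpr hcop)
    have h1 : (1 : 𝓞 L) ∈ P := by
      have h2 : ((u : ℤ) : 𝓞 L) * (ℓ : 𝓞 L) + ((v : ℤ) : 𝓞 L) * (n : 𝓞 L) = 1 := by
        have := congrArg (Int.cast : ℤ → 𝓞 L) huv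
        push_cast at this
        exact this
      rw [← h2]
      exact P.add_mem (P.mul_mem_left _ hℓP) (P.mul_mem_left _ hnP)
    exact hP.ne_top ((Ideal.eq_top_iff_one P).mpr h1)

end Fermat.Agent.ChebLib
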