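import Mathlib
import Fermat.Agent.Lib.Chebotarev.Decomp

set_option autoImplicit false
set_option linter.unusedSectionVars false

namespace Fermat.Agent.ChebLib
open NumberField
open scoped Pointwise

variable {L : Type} [Field L] [NumberField L] [IsGalois ℚ L]

theorem ct_smul_algebraMap (H : Subgroup (L ≃ₐ[ℚ] L)) (h : L ≃ₐ[ℚ] L) (hh : h ∈ H)
    (a : 𝓞 (IntermediateField.fixedField H)) :
    h • (algebraMap (𝓞 (IntermediateField.fixedField H)) (𝓞 L) a) =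
      algebraMap (𝓞 (IntermediateField.fixedField H)) (𝓞 L) a := by
  apply RingOfIntegers.ext
  have h1 := (IntermediateField.mem_fixedField_iff H ((a : IntermediateField.fixedField H) : L)).1
    (a : IntermediateField.fixedField H).2 h hh
  exact h1

theorem ct_under_smul (H : Subgroup (L ≃ₐ[ℚ] L)) (P : Ideal (𝓞 L)) (h : L ≃ₐ[ℚ] L) (hh : h ∈ H) :
    (h • P).under (𝓞 (IntermediateField.fixedField H)) =
      P.under (𝓞 (IntermediateField.fixedField H)) := by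
  ext a
  rw [Ideal.mem_comap, Ideal.mem_comap, Ideal.mem_pointwise_smul_iff_inv_smul_mem,
    ct_smul_algebraMap H h⁻¹ (inv_mem hh)]

theorem ct_exists_over (H : Subgroup (L ≃ₐ[ℚ] L)) (I : Ideal (𝓞 (IntermediateField.fixedField H)))
    (hI : I.IsPrime) : ∃ P : Ideal (𝓞 L), P.IsPrime ∧ P.under (𝓞 (IntermediateField.fixedField H)) = I := by
  obtain ⟨Q, -, hQ, hQ'⟩ := Ideal.exists_ideal_over_prime_of_isIntegral (S := 𝓞 L) I ⊥ (by
    rw [← RingHom.ker_eq_comap_bot, (RingHom.injective_iff_ker_eq_bot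
      (algebraMap (𝓞 (IntermediateField.fixedField H)) (𝓞 L))).1
      (FaithfulSMul.algebraMap_injective _ _)]
    exact bot_le)
  exact ⟨Q, hQ, hQ'⟩

theorem ct_natCast_mem_smul (P : Ideal (𝓞 L)) (g : L ≃ₐ[ℚ] L) (n : ℕ) (h : (n : 𝓞 L) ∈ P) :
    (n : 𝓞 L) ∈ g • P := by
  rw [Ideal.mem_pointwise_smul_iff_inv_smul_mem]
  have h1 : g⁻¹ • (n : 𝓞 L) = n := map_natCast (MulSemiringAction.toRingHom _ (𝓞 L) g⁻¹) n
  rwa [h1]

theorem ct_isPrime_smul (P : Ideal (𝓞 L)) (g : L ≃ₐ[ℚ] L) (h : P.IsPrime) : (g • P).IsPrime := by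
  infer_instance

/-- (CT) the counting formula. -/
theorem count_formula (H : Subgroup (L ≃ₐ[ℚ] L)) {ℓ : ℕ} (hℓ : ℓ.Prime)
    (hI : ∀ P : Ideal (𝓞 L), P.IsPrime → (ℓ : 𝓞 L) ∈ P →
      ∀ g : L ≃ₐ[ℚ] L, (∀ x : 𝓞 L, g • x - x ∈ P) → g = 1) :
    Nat.card H * Nat.card {I : Ideal (𝓞 (IntermediateField.fixedField H)) // Ideal.absNorm I = ℓ} =
      Nat.card {x : Ideal (𝓞 L) × (L ≃ₐ[ℚ] L) // x.1.IsPrime ∧ (ℓ : 𝓞 L) ∈ x.1 ∧
        MulAction.stabilizer (L ≃ₐ[ℚ] L) x.1 ≤ H ∧ x.2 • x.1 = x.1} := by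
  classical
  have hY : ∀ I : Ideal (𝓞 (IntermediateField.fixedField H)), Ideal.absNorm I = ℓ → I.IsPrime :=
    fun I hI => Ideal.isPrime_of_irreducible_absNorm (by rw [hI]; exact hℓ)
  choose! P₀ hP₀ hP₀' using (fun I (hI : I.IsPrime) => ct_exists_over H I hI)
  have hex : ∀ P : Ideal (𝓞 L), P.IsPrime →
      ∃ g, g ∈ H ∧ g • P₀ (P.under (𝓞 (IntermediateField.fixedField H))) = P := by
    intro P hP
    have h1 : (P.under (𝓞 (IntermediateField.fixedField H))).IsPrime := inferInstance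
    exact exists_smul_eq_of_under_eq H _ P (hP₀ _ h1) hP (hP₀' _ h1)
  choose! h₁ hh₁ hh₁' using hex
  have hmem : ∀ I : Ideal (𝓞 (IntermediateField.fixedField H)), Ideal.absNorm I = ℓ →
      (ℓ : 𝓞 L) ∈ P₀ I := by
    intro I hIℓ
    have h1 : (ℓ : 𝓞 (IntermediateField.fixedField H)) ∈ I := hIℓ ▸ Ideal.absNorm_mem I
    rw [← hP₀' I (hY I hIℓ), Ideal.mem_comap, map_natCast] at h1
    exact h1
  have hund : ∀ (h : L ≃ₐ[ℚ] L) (_ : h ∈ H) (I : Ideal (𝓞 (IntermediateField.fixedField H))),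
      Ideal.absNorm I = ℓ → (h • P₀ I).under (𝓞 (IntermediateField.fixedField H)) = I := by
    intro h hh I hIℓ
    rw [ct_under_smul H _ h hh, hP₀' I (hY I hIℓ)]
  rw [← Nat.card_prod]
  refine Nat.card_congr (Equiv.ofBijective (fun x => ⟨(x.1.1 • P₀ x.2.1,
    x.1.1 * (h₁ (x.1.1 • P₀ x.2.1))⁻¹), ?_⟩) ⟨?_, ?_⟩)
  · obtain ⟨⟨h, hh⟩, ⟨I, hIℓ⟩⟩ := x
    have hP : (h • P₀ I).IsPrime := ct_isPrime_smul _ h (hP₀ I (hY I hIℓ))
    have hℓP : (ℓ : 𝓞 L) ∈ h • P₀ I := ct_natCast_mem_smul _ h ℓ (hmem I hIℓ)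
    refine ⟨hP, hℓP, ?_, ?_⟩
    · exact stabilizer_le_of_absNorm_under H _ hP hℓ (hI _ hP hℓP) (by rw [hund h hh I hIℓ, hIℓ])
    · show (h * (h₁ (h • P₀ I))⁻¹) • (h • P₀ I) = h • P₀ I
      have h2 := hh₁' _ hP
      rw [hund h hh I hIℓ] at h2
      rw [mul_smul]
      congr 1
      rw [inv_smul_eq_iff, h2]
  · rintro ⟨⟨h, hh⟩, ⟨I, hIℓ⟩⟩ ⟨⟨h', hh'⟩, ⟨I', hIℓ'⟩⟩ hxy
    simp only [Subtype.mk.injEq, Prod.mk.injEq] at hxy
    obtain ⟨h1, h2⟩ := hxy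
    have h3 : I = I' := by
      rw [← hund h hh I hIℓ, h1, hund h' hh' I' hIℓ']
    rw [h1] at h2
    have h4 : h = h' := mul_right_cancel h2
    subst h3 h4
    rfl
  · rintro ⟨⟨P, g⟩, hP, hℓP, hst, hg⟩
    obtain ⟨t, htP, htF⟩ := exists_frob P hP hℓ hℓP
    have hN := absNorm_under_of_frob H P hP hℓ hℓP t (hst htP) htF
    have hg' : g • P = P := hg
    have h5 : (g * h₁ P) • P₀ (P.under (𝓞 (IntermediateField.fixedField H))) = P := by
      rw [mul_smul, hh₁' P hP, hg']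
    refine ⟨(⟨g * h₁ P, mul_mem (hst hg) (hh₁ P hP)⟩, ⟨P.under _, hN⟩), ?_⟩
    apply Subtype.ext
    show ((g * h₁ P) • P₀ (P.under (𝓞 (IntermediateField.fixedField H))),
      (g * h₁ P) * (h₁ ((g * h₁ P) • P₀ (P.under (𝓞 (IntermediateField.fixedField H)))))⁻¹) = (P, g)
    rw [h5, mul_inv_cancel_right]

end Fermat.Agent.ChebLib
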