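import Mathlib
import Fermat.Agent.Lib.Chebotarev.Defs

/-!
# Weak Chebotarev: API for `HasDens`
-/

set_option autoImplicit false

namespace Fermat.Agent.ChebLib

open Filter Topology Asymptotics

theorem HasDens.add {a b : ℕ → ℝ} {δ ε : ℝ} (ha : HasDens a δ) (hb : HasDens b ε) :
    HasDens (fun n => a n + b n) (δ + ε) := by
  refine ⟨fun s hs => ?_, ?_⟩
  · simpa only [add_mul] using (ha.1 s hs).add (hb.1 s hs)
  · refine (ha.2.add hb.2).congr' ?_ EventuallyEq.rfl
    filter_upwards [self_mem_nhdsWithin] with s hs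
    have hs' : 1 < s := hs
    simp only [add_mul]
    rw [(ha.1 s hs').tsum_add (hb.1 s hs')]
    ring

theorem HasDens.const_mul {a : ℕ → ℝ} {δ : ℝ} (c : ℝ) (ha : HasDens a δ) :
    HasDens (fun n => c * a n) (c * δ) := by
  refine ⟨fun s hs => ?_, ?_⟩
  · simpa only [mul_assoc] using (ha.1 s hs).mul_left c
  · refine (ha.2.const_mul_left c).congr' ?_ EventuallyEq.rfl
    filter_upwards [self_mem_nhdsWithin] with s hs
    simp only [mul_assoc]
    rw [tsum_mul_left]
    ring

theorem HasDens.neg {a : ℕ → ℝ} {δ : ℝ} (ha : HasDens a δ) :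
    HasDens (fun n => - a n) (- δ) := by
  simpa using ha.const_mul (-1)

theorem HasDens.sub {a b : ℕ → ℝ} {δ ε : ℝ} (ha : HasDens a δ) (hb : HasDens b ε) :
    HasDens (fun n => a n - b n) (δ - ε) := by
  simpa only [sub_eq_add_neg] using ha.add hb.neg

theorem HasDens.zero : HasDens (fun _ => 0) 0 := by
  refine ⟨fun s _ => by simp, ?_⟩
  simp only [zero_mul, tsum_zero, sub_zero]
  exact isBigO_zero _ _

theorem HasDens.sum {ι : Type*} (T : Finset ι) {a : ι → ℕ → ℝ} {δ : ι → ℝ}
    (h : ∀ i ∈ T, HasDens (a i) (δ i)) :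
    HasDens (fun n => ∑ i ∈ T, a i n) (∑ i ∈ T, δ i) := by
  classical
  induction T using Finset.induction_on with
  | empty => simpa using HasDens.zero
  | insert i T hi ih =>
    simp only [Finset.sum_insert hi]
    exact (h i (Finset.mem_insert_self i T)).add
      (ih fun j hj => h j (Finset.mem_insert_of_mem hj))

theorem tendsto_log_one_div_sub :
    Tendsto (fun s : ℝ => Real.log (1 / (s - 1))) (𝓝[>] 1) atTop := by
  have h1 : Tendsto (fun s : ℝ => s - 1) (𝓝[>] 1) (𝓝[>] 0) := by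
    refine tendsto_nhdsWithin_iff.2 ⟨?_, ?_⟩
    · have : Tendsto (fun s : ℝ => s - 1) (𝓝 1) (𝓝 (1 - 1)) :=
        (continuous_id.sub continuous_const).tendsto 1
      rw [sub_self] at this
      exact this.mono_left nhdsWithin_le_nhds
    · filter_upwards [self_mem_nhdsWithin] with s hs
      have hs' : 1 < s := hs
      exact sub_pos.2 hs'
  have h2 : Tendsto (fun s : ℝ => (s - 1)⁻¹) (𝓝[>] 1) atTop := tendsto_inv_nhdsGT_zero.comp h1
  simp only [one_div]
  exact Real.tendsto_log_atTop.comp h2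

theorem HasDens.exists_ne_zero {a : ℕ → ℝ} {δ : ℝ} (ha : HasDens a δ) (hδ : δ ≠ 0) :
    ∃ n, a n ≠ 0 := by
  by_contra hcon
  push Not at hcon
  have h := ha.2
  simp only [hcon, zero_mul, tsum_zero, zero_sub] at h
  have h2 : (fun s : ℝ => Real.log (1 / (s - 1))) =O[𝓝[>] 1] (fun _ => (1 : ℝ)) := by
    have := (h.const_mul_left (-δ⁻¹))
    refine this.congr' ?_ EventuallyEq.rfl
    filter_upwards with s
    field_simp
  obtain ⟨C, hC⟩ := h2.bound
  have h3 := tendsto_log_one_div_sub.eventually_gt_atTop C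
  obtain ⟨s, hs1, hs2⟩ := (hC.and h3).exists
  simp only [norm_one, mul_one] at hs1
  exact absurd (lt_of_lt_of_le hs2 ((le_abs_self _).trans hs1)) (lt_irrefl _)

end Fermat.Agent.ChebLib
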