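import Mathlib
import Fermat.Agent.Lib.Chebotarev.Dens
import Fermat.Agent.Lib.Chebotarev.Analytic
import Fermat.Agent.Lib.Chebotarev.Count

set_option autoImplicit false
set_option linter.unusedSectionVars false
set_option linter.style.haveILetI false

namespace Fermat.Agent.ChebLib
open NumberField IsDedekindDomain
open scoped Pointwise

theorem in_card_fiberwise {α β : Type*} [Finite α] [Fintype β] (f : α → β) :
    Nat.card α = ∑ b, Nat.card {a // f a = b} := by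
  rw [← Nat.card_sigma]
  exact Nat.card_congr (Equiv.sigmaFiberEquiv f).symm

open Classical in
theorem in_sum_split {α : Type*} [Fintype α] [PartialOrder α] (H : α) (f : α → ℝ) :
    ∑ D, (if D ≤ H then f D else 0) = f H + ∑ D ∈ Finset.univ.filter (· < H), f D := by
  rw [← Finset.sum_filter]
  have h1 : Finset.univ.filter (· ≤ H) = insert H (Finset.univ.filter (· < H)) := by
    ext D
    simp only [Finset.mem_filter, Finset.mem_univ, true_and, Finset.mem_insert]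
    exact le_iff_eq_or_lt
  rw [h1, Finset.sum_insert (by simp)]

open Classical in
theorem in_card_eq_sum_gen {G : Type*} [Group G] [Finite G] [Fintype (Subgroup G)]
    (H : Subgroup G) :
    Nat.card H = ∑ D : Subgroup G,
      if D ≤ H then Nat.card {g : G // Subgroup.zpowers g = D} else 0 := by
  rw [in_card_fiberwise (fun h : H => Subgroup.zpowers (h : G))]
  refine Finset.sum_congr rfl fun D _ => ?_
  split_ifs with hD
  · exact Nat.card_congr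
      { toFun := fun x => ⟨x.1.1, x.2⟩
        invFun := fun y => ⟨⟨y.1, hD (by
          have h1 := Subgroup.mem_zpowers y.1
          rw [y.2] at h1
          exact h1)⟩, y.2⟩
        left_inv := fun _ => rfl
        right_inv := fun _ => rfl }
  · exact Nat.card_eq_zero.2 (Or.inl ⟨fun x => hD (x.2 ▸ (Subgroup.zpowers_le.2 x.1.2))⟩)

variable {L : Type} [Field L] [NumberField L] [IsGalois ℚ L]

theorem in_finite (ℓ : ℕ) (hℓ : ℓ ≠ 0) : {P : Ideal (𝓞 L) | P.IsPrime ∧ (ℓ : 𝓞 L) ∈ P}.Finite := by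
  have h0 : Ideal.span {(ℓ : 𝓞 L)} ≠ 0 := by
    rw [Ne, Ideal.zero_eq_bot, Ideal.span_singleton_eq_bot]
    exact_mod_cast hℓ
  refine ((Ideal.finite_factors h0).image (fun v => v.asIdeal)).subset ?_
  rintro P ⟨hP, hℓP⟩
  have hP0 : P ≠ ⊥ := by
    rintro rfl
    exact hℓ (by exact_mod_cast (Ideal.mem_bot.1 hℓP))
  exact ⟨⟨P, hP, hP0⟩, Ideal.dvd_span_singleton.2 hℓP, rfl⟩

/-- number of primes over `ℓ` with stabilizer `D`. -/
noncomputable def mD (D : Subgroup (L ≃ₐ[ℚ] L)) (ℓ : ℕ) : ℕ :=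
  Nat.card {P : Ideal (𝓞 L) // P.IsPrime ∧ (ℓ : 𝓞 L) ∈ P ∧
    MulAction.stabilizer (L ≃ₐ[ℚ] L) P = D}

open Classical in
theorem in_regroup [Fintype (Subgroup (L ≃ₐ[ℚ] L))] (H : Subgroup (L ≃ₐ[ℚ] L)) (ℓ : ℕ)
    (hℓ : ℓ ≠ 0) :
    Nat.card {x : Ideal (𝓞 L) × (L ≃ₐ[ℚ] L) // x.1.IsPrime ∧ (ℓ : 𝓞 L) ∈ x.1 ∧
        MulAction.stabilizer (L ≃ₐ[ℚ] L) x.1 ≤ H ∧ x.2 • x.1 = x.1} =
      ∑ D : Subgroup (L ≃ₐ[ℚ] L), if D ≤ H then Nat.card D * mD D ℓ else 0 := by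
  have hfin : Finite {x : Ideal (𝓞 L) × (L ≃ₐ[ℚ] L) // x.1.IsPrime ∧ (ℓ : 𝓞 L) ∈ x.1 ∧
        MulAction.stabilizer (L ≃ₐ[ℚ] L) x.1 ≤ H ∧ x.2 • x.1 = x.1} := by
    refine (((in_finite (L := L) ℓ hℓ).prod (Set.finite_univ (α := L ≃ₐ[ℚ] L))).subset ?_).to_subtype
    rintro ⟨P, g⟩ ⟨h1, h2, -, -⟩
    exact ⟨⟨h1, h2⟩, Set.mem_univ _⟩
  rw [in_card_fiberwise (fun x : {x : Ideal (𝓞 L) × (L ≃ₐ[ℚ] L) // x.1.IsPrime ∧ (ℓ : 𝓞 L) ∈ x.1 ∧
        MulAction.stabilizer (L ≃ₐ[ℚ] L) x.1 ≤ H ∧ x.2 • x.1 = x.1} =>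
        MulAction.stabilizer (L ≃ₐ[ℚ] L) x.1.1)]
  refine Finset.sum_congr rfl fun D _ => ?_
  split_ifs with hD
  · rw [mul_comm, mD, ← Nat.card_prod]
    exact Nat.card_congr
      { toFun := fun x => (⟨x.1.1.1, x.1.2.1, x.1.2.2.1, x.2⟩, ⟨x.1.1.2, by
          have h2 : x.1.1.2 ∈ MulAction.stabilizer (L ≃ₐ[ℚ] L) x.1.1.1 := x.1.2.2.2.2
          rw [x.2] at h2
          exact h2⟩)
        invFun := fun y => ⟨⟨(y.1.1, y.2.1), y.1.2.1, y.1.2.2.1, (le_of_eq y.1.2.2.2).trans hD, by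
          have h1 : y.2.1 ∈ MulAction.stabilizer (L ≃ₐ[ℚ] L) y.1.1 := by
            rw [y.1.2.2.2]
            exact y.2.2
          exact h1⟩, y.1.2.2.2⟩
        left_inv := fun _ => rfl
        right_inv := fun _ => rfl }
  · exact Nat.card_eq_zero.2 (Or.inl ⟨fun x => hD (x.2 ▸ x.1.2.2.2.1)⟩)

open Classical in
theorem in_hasDens (B : ℕ) (hB : B ≠ 0)
    (hbad : ∀ ℓ : ℕ, ℓ.Prime → ¬ ℓ ∣ B → ∀ P : Ideal (𝓞 L), P.IsPrime →
      (ℓ : 𝓞 L) ∈ P → ∀ g : L ≃ₐ[ℚ] L, (∀ x : 𝓞 L, g • x - x ∈ P) → g = 1)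
    (H : Subgroup (L ≃ₐ[ℚ] L)) :
    HasDens (fun ℓ : ℕ => if ℓ.Prime ∧ ¬ ℓ ∣ B then ((Nat.card H : ℝ) * (mD H ℓ : ℝ)) else 0)
      (Nat.card {g : L ≃ₐ[ℚ] L // Subgroup.zpowers g = H}) := by
  letI : Fintype (Subgroup (L ≃ₐ[ℚ] L)) := Fintype.ofFinite _
  induction H using WellFoundedLT.induction with
  | ind H ih =>
    have h1 := (hasDens_degree_one (IntermediateField.fixedField H) B hB).const_mul (Nat.card H : ℝ)
    have h2 := HasDens.sum (Finset.univ.filter (· < H)) (fun D hD => ih D (Finset.mem_filter.1 hD).2)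
    have h3 := h1.sub h2
    have hδ : (Nat.card H : ℝ) * 1 - ∑ D ∈ Finset.univ.filter (· < H),
        (Nat.card {g : L ≃ₐ[ℚ] L // Subgroup.zpowers g = D} : ℝ) =
        (Nat.card {g : L ≃ₐ[ℚ] L // Subgroup.zpowers g = H} : ℝ) := by
      have h4 := in_card_eq_sum_gen H
      have h5 : (Nat.card H : ℝ) = ∑ D : Subgroup (L ≃ₐ[ℚ] L),
          if D ≤ H then (Nat.card {g : L ≃ₐ[ℚ] L // Subgroup.zpowers g = D} : ℝ) else 0 := by
        conv_lhs => rw [h4]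
        push_cast
        rfl
      rw [in_sum_split] at h5
      rw [mul_one, h5]
      ring
    rw [hδ] at h3
    convert h3 using 1
    funext ℓ
    by_cases hg : ℓ.Prime ∧ ¬ ℓ ∣ B
    · simp only [if_pos hg]
      have h6 := count_formula H hg.1 (hbad ℓ hg.1 hg.2)
      rw [in_regroup H ℓ hg.1.ne_zero] at h6
      have h7 : (Nat.card H : ℝ) * (Nat.card {I : Ideal (𝓞 (IntermediateField.fixedField H)) //
          Ideal.absNorm I = ℓ} : ℝ) = ∑ D : Subgroup (L ≃ₐ[ℚ] L),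
          if D ≤ H then ((Nat.card D : ℝ) * (mD D ℓ : ℝ)) else 0 := by
        rw [← Nat.cast_mul, h6]
        push_cast
        rfl
      rw [in_sum_split] at h7
      rw [h7]
      ring
    · simp only [if_neg hg]
      simp

/-- (IN) -/
theorem exists_prime_stabilizer_eq (s : L ≃ₐ[ℚ] L) (B : ℕ) (hB : B ≠ 0) :
    ∃ ℓ : ℕ, ℓ.Prime ∧ ¬ ℓ ∣ B ∧ ∃ P : Ideal (𝓞 L), P.IsPrime ∧ (ℓ : 𝓞 L) ∈ P ∧
      (∀ g : L ≃ₐ[ℚ] L, (∀ x : 𝓞 L, g • x - x ∈ P) → g = 1) ∧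
      MulAction.stabilizer (L ≃ₐ[ℚ] L) P = Subgroup.zpowers s := by
  obtain ⟨B₀, hB₀, hbad⟩ := exists_bad L
  have hbad' : ∀ ℓ : ℕ, ℓ.Prime → ¬ ℓ ∣ B * B₀ → ∀ P : Ideal (𝓞 L), P.IsPrime →
      (ℓ : 𝓞 L) ∈ P → ∀ g : L ≃ₐ[ℚ] L, (∀ x : 𝓞 L, g • x - x ∈ P) → g = 1 :=
    fun ℓ hℓ hd => hbad ℓ hℓ fun h => hd (h.mul_left B)
  have h1 := in_hasDens (B * B₀) (mul_ne_zero hB hB₀) hbad' (Subgroup.zpowers s)
  have hne : (Nat.card {g : L ≃ₐ[ℚ] L // Subgroup.zpowers g = Subgroup.zpowers s} : ℝ) ≠ 0 := by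
    have : Nonempty {g : L ≃ₐ[ℚ] L // Subgroup.zpowers g = Subgroup.zpowers s} := ⟨⟨s, rfl⟩⟩
    exact_mod_cast Nat.card_pos.ne'
  obtain ⟨ℓ, hℓ⟩ := h1.exists_ne_zero hne
  by_cases hg : ℓ.Prime ∧ ¬ ℓ ∣ B * B₀
  · simp only [if_pos hg] at hℓ
    have h2 : mD (Subgroup.zpowers s) ℓ ≠ 0 := by
      intro h
      apply hℓ
      rw [h]
      simp
    rw [mD, Nat.card_ne_zero] at h2
    obtain ⟨⟨P, hP, hℓP, hst⟩⟩ := h2.1
    exact ⟨ℓ, hg.1, fun h => hg.2 (h.mul_right B₀), P, hP, hℓP, hbad' ℓ hg.1 hg.2 P hP hℓP, hst⟩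
  · simp only [if_neg hg] at hℓ
    exact absurd rfl hℓ

end Fermat.Agent.ChebLib
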