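import Mathlib
import Fermat.Agent.Lib.Chebotarev.Defs
import Fermat.Agent.S14.LiftPlace
import Fermat.Agent.Lib.FrobeniusExists

set_option autoImplicit false
set_option linter.style.haveILetI false

namespace Fermat.Agent.ChebLib

open NumberField Filter Topology Asymptotics
open scoped Pointwise
open Fermat.Agent.FrobLib Fermat.Agent.S14Lib

local notation "Qb" => AlgebraicClosure ℚ
local notation "GQ" => (AlgebraicClosure ℚ ≃ₐ[ℚ] AlgebraicClosure ℚ)
local notation "Zbar" => integralClosure ℤ (AlgebraicClosure ℚ)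

attribute [local instance] isAlgebraic_Qbar isAlgClosure_Qbar

theorem lf_frob_center (A : ValuationSubring Qb) {ℓ : ℕ} (τ : GQ) (hτ : A.IsFrobeniusAt τ ℓ)
    (b : Zbar) : τ • b - b ^ ℓ ∈ center A := by
  obtain ⟨hd, hF⟩ := hτ
  have h1 := hF (IsLocalRing.residue A (incl A b))
  rw [← IsLocalRing.ResidueField.residue_smul, ← map_pow, ← sub_eq_zero, ← map_sub,
    IsLocalRing.residue_eq_zero_iff] at h1
  rw [center, Ideal.mem_comap]
  exact h1

theorem lift_frob (N : IntermediateField ℚ Qb) [FiniteDimensional ℚ N] [IsGalois ℚ N]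
    (P : Ideal (𝓞 N)) (hP : P.IsPrime) {ℓ : ℕ} (hℓ : ℓ.Prime) (hℓP : (ℓ : 𝓞 N) ∈ P) :
    ∃ (A : ValuationSubring Qb) (τ : GQ) (t : N ≃ₐ[ℚ] N), A.LiesOverPrime ℓ ∧
      A.IsFrobeniusAt τ ℓ ∧ (∀ x : N, τ (x : Qb) = ((t x : N) : Qb)) ∧ t • P = P ∧
      ∀ x : 𝓞 N, t • x - x ^ ℓ ∈ P := by
  have hP0 : P ≠ ⊥ := by
    rintro rfl
    rw [Ideal.mem_bot, Nat.cast_eq_zero] at hℓP
    exact hℓ.ne_zero hℓP
  obtain ⟨A, hA⟩ := LP_exists_place N P hP hP0
  have hAℓ : A.LiesOverPrime ℓ := by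
    have h1 := (hA _).mpr hℓP
    rw [mem_center_iff, LP_coe_toZbar] at h1
    show (ℓ : Qb) ∈ A.nonunits
    simpa using h1
  obtain ⟨τ, hτ⟩ := exists_isFrobeniusAt A hℓ hAℓ
  set t : N ≃ₐ[ℚ] N := AlgEquiv.restrictNormalHom N τ with ht
  have hτt : ∀ x : N, τ (x : Qb) = ((t x : N) : Qb) := fun x =>
    (AlgEquiv.restrictNormal_commutes τ N x).symm
  have hfrob : ∀ x : 𝓞 N, t • x - x ^ ℓ ∈ P := by
    intro x
    rw [← hA, map_sub, map_pow, ← LP_smul_toZbar N t τ hτt]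
    exact lf_frob_center A τ hτ _
  have hiff : ∀ x : 𝓞 N, t • x ∈ P ↔ x ∈ P := by
    intro x
    constructor
    · intro h
      have h1 := P.sub_mem h (hfrob x)
      rw [sub_sub_cancel] at h1
      exact hP.mem_of_pow_mem ℓ h1
    · intro h
      have h1 := P.add_mem (hfrob x) (P.pow_mem_of_mem h ℓ hℓ.pos)
      rwa [sub_add_cancel] at h1
  refine ⟨A, τ, t, hAℓ, hτ, hτt, ?_, hfrob⟩
  ext y
  rw [Ideal.mem_pointwise_smul_iff_inv_smul_mem, ← hiff, smul_inv_smul]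

end Fermat.Agent.ChebLib
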