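import Mathlib
import Fermat.Agent.Lib.Chebotarev.Induct
import Fermat.Agent.Lib.Chebotarev.Lift
import Fermat.Agent.S14.FiniteLevel

set_option autoImplicit false
set_option linter.unusedSectionVars false
set_option linter.style.haveILetI false

namespace Fermat.Agent.ChebLib

open NumberField
open scoped Pointwise

section
variable {L : Type} [Field L] [NumberField L] [IsGalois ℚ L]

/-- At a prime with trivial inertia the decomposition group is generated by any Frobenius. -/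
theorem stabilizer_eq_zpowers (P : Ideal (𝓞 L)) (hP : P.IsPrime) {ℓ : ℕ} (hℓ : ℓ.Prime)
    (hℓP : (ℓ : 𝓞 L) ∈ P) (hI : ∀ g : L ≃ₐ[ℚ] L, (∀ x : 𝓞 L, g • x - x ∈ P) → g = 1)
    (t : L ≃ₐ[ℚ] L) (htP : t • P = P) (ht : ∀ x : 𝓞 L, t • x - x ^ ℓ ∈ P) :
    MulAction.stabilizer (L ≃ₐ[ℚ] L) P = Subgroup.zpowers t := by
  apply le_antisymm
  · exact stabilizer_le_of_absNorm_under _ P hP hℓ hI
      (absNorm_under_of_frob _ P hP hℓ hℓP t (Subgroup.mem_zpowers t) ht)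
  · exact Subgroup.zpowers_le.2 htP

end

local notation "Qb" => AlgebraicClosure ℚ
local notation "GQ" => (AlgebraicClosure ℚ ≃ₐ[ℚ] AlgebraicClosure ℚ)

/-- **Weak Chebotarev / Frobenius density theorem**, finite-level form. -/
theorem weak_chebotarev_field (N : IntermediateField ℚ Qb) [FiniteDimensional ℚ N] [IsGalois ℚ N]
    (s : N ≃ₐ[ℚ] N) (S : Finset ℕ) :
    ∃ (ℓ : ℕ) (A : ValuationSubring Qb) (τ : GQ) (t : N ≃ₐ[ℚ] N), ℓ.Prime ∧ ℓ ∉ S ∧
      A.LiesOverPrime ℓ ∧ A.IsFrobeniusAt τ ℓ ∧ (∀ x : N, τ (x : Qb) = ((t x : N) : Qb)) ∧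
      Subgroup.zpowers t = Subgroup.zpowers s := by
  haveI : NumberField N := {}
  obtain ⟨ℓ, hℓ, hℓB, P, hP, hℓP, hI, hst⟩ := exists_prime_stabilizer_eq (L := N) s
    (∏ q ∈ S, (if q = 0 then 1 else q))
    (Finset.prod_ne_zero_iff.2 fun q _ => by split_ifs <;> simp [*])
  obtain ⟨A, τ, t, hA, hτ, hτt, htP, htF⟩ := lift_frob N P hP hℓ hℓP
  refine ⟨ℓ, A, τ, t, hℓ, ?_, hA, hτ, hτt, ?_⟩
  · intro hS
    apply hℓB
    have h1 := Finset.dvd_prod_of_mem (fun q => if q = 0 then 1 else q) hS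
    simpa [hℓ.ne_zero] using h1
  · rw [← hst, stabilizer_eq_zpowers P hP hℓ hℓP hI t htP htF]

/-- **Weak Chebotarev / Frobenius density theorem.** -/
theorem weak_chebotarev (U : Subgroup GQ) (hU : IsOpen (U : Set GQ)) (hn : U.Normal) (σ : GQ)
    (S : Finset ℕ) :
    ∃ (ℓ : ℕ) (A : ValuationSubring Qb) (τ : GQ) (k j : ℕ), ℓ.Prime ∧ ℓ ∉ S ∧ A.LiesOverPrime ℓ ∧
      A.IsFrobeniusAt τ ℓ ∧ σ⁻¹ * τ ^ k ∈ U ∧ τ⁻¹ * σ ^ j ∈ U := by
  obtain ⟨N, hfd, hgal, -, hU', -, hres⟩ := Fermat.Agent.S14Lib.exists_finite_level U hU hn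
  obtain ⟨s, hs⟩ := hres σ
  obtain ⟨ℓ, A, τ, t, hℓ, hℓS, hA, hτ, hτt, hz⟩ := weak_chebotarev_field N s S
  have hpow : ∀ (ρ : GQ) (r : N ≃ₐ[ℚ] N), (∀ x : N, ρ (x : Qb) = ((r x : N) : Qb)) →
      ∀ (k : ℕ) (x : N), (ρ ^ k) (x : Qb) = (((r ^ k) x : N) : Qb) := by
    intro ρ r h k
    induction k with
    | zero => intro x; simp
    | succ k ih =>
      intro x
      rw [pow_succ, pow_succ, AlgEquiv.mul_apply, AlgEquiv.mul_apply, h, ih]
  have hs1 : s ∈ Submonoid.powers t := by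
    rw [mem_powers_iff_mem_zpowers, hz]
    exact Subgroup.mem_zpowers s
  have ht1 : t ∈ Submonoid.powers s := by
    rw [mem_powers_iff_mem_zpowers, ← hz]
    exact Subgroup.mem_zpowers t
  obtain ⟨k, hk⟩ := hs1
  obtain ⟨j, hj⟩ := ht1
  have hk : t ^ k = s := hk
  have hj : s ^ j = t := hj
  refine ⟨ℓ, A, τ, k, j, hℓ, hℓS, hA, hτ, ?_, ?_⟩
  · rw [hU']
    intro x
    rw [AlgEquiv.mul_apply, hpow τ t hτt, hk, ← hs]
    exact AlgEquiv.symm_apply_apply σ _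
  · rw [hU']
    intro x
    rw [AlgEquiv.mul_apply, hpow σ s hs, hj, ← hτt]
    exact AlgEquiv.symm_apply_apply τ _

end Fermat.Agent.ChebLib
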